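import Fermat.Agent.S18.H138.Connected
import Fermat.Agent.S18.H456.ModCoord
import Fermat.Agent.S18.H456.ModR
import Fermat.Agent.S18.Mod.H458.FldFinite
import Fermat.Agent.S18.H602.DVR

/-!
# Cell A2, MODASM part 0 (helper13): the two-chart setting of `S18.H138` for the modular curve

For EVERY level `N`, every valuation subring `A` of `Q̄` over a prime `ℓ` (no condition on
`ℓ` and `N`: bad reduction allowed) and every number field `E ⊆ Q̄` we instantiate the abstract
setting of `S18.H138.connected_special_fibre` (and hence of `A2.H729.generic_idempotent_trivial`,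
`kummer_trivial_of_local`):

* `R := H602.RE A E = A ∩ E`  (a discrete valuation ring),
* `F := ↥(Fc N E) = E(j_d : d ∣ N)`  (as a type), `Algebra R F` = `algRF N A E`,
* `x := jE N E`  (the function `j`).

Main results:

* `algebraMap_RF_injective`, `mem_range_of_isIntegral` (`R` is integrally closed in `F`),
  `transcendental_jE`, `finiteDimensional_baseField`, `isIntegrallyClosed_polynomial_RE`;
* `modular_connected_special_fibre` : the special fibre of the normal two-chart model of
  `X₀(N)` over `A ∩ E` (charts = integral closures of `R[j]`, `R[1/j]`) is connected.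
-/

set_option autoImplicit false
set_option linter.style.haveILetI false

noncomputable section

namespace Fermat.Agent.A2.H13

open ModularCurve AlgebraicCurve HahnSeries Polynomial
open Fermat.Agent.S18 Fermat.Agent.S18.Mod Fermat.Agent.S18.H138

variable (N : ℕ) (A : ValuationSubring Qb) (E : IntermediateField ℚ Qb)

/-- The constants `A ∩ E → E(j_d : d ∣ N)`. -/
def cstRF : ↥(H602.RE A E) →+* ↥(Fc N E) where
  toFun r := ⟨H456.cstR N A E r,
    H456.field_E_le_F N E (H456.field_R_le N A E (H456.cstR_mem_Rc N A E r))⟩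
  map_one' := Subtype.ext (H456.cstR_one N A E)
  map_mul' r s := Subtype.ext (H456.cstR_mul N A E r s)
  map_zero' := Subtype.ext (H456.cstR_zero N A E)
  map_add' r s := Subtype.ext (by
    show H456.cstR N A E (r + s) = H456.cstR N A E r + H456.cstR N A E s
    unfold H456.cstR
    rw [← map_add]
    rfl)

/-- The `A ∩ E`-algebra structure of `E(j_d : d ∣ N)`. -/
instance algRF : Algebra ↥(H602.RE A E) ↥(Fc N E) := (cstRF N A E).toAlgebra

theorem algebraMap_RF_eq : algebraMap ↥(H602.RE A E) ↥(Fc N E) = cstRF N A E := rfl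

theorem coe_cstRF (r : ↥(H602.RE A E)) : ((cstRF N A E r : ↥(Fc N E)) : Om N) =
    H456.cstR N A E r := rfl

theorem cstRF_injective : Function.Injective (cstRF N A E) := by
  intro r s h
  exact H456.cstR_injective N A E (congrArg Subtype.val h)

theorem algebraMap_RF_injective :
    Function.Injective (algebraMap ↥(H602.RE A E) ↥(Fc N E)) := cstRF_injective N A E

/-- Coercion `E(j_d) → Ω` as a ring homomorphism. -/
abbrev valF : ↥(Fc N E) →+* Om N := (Fc N E).subtype

/-- `E → Ω`, constants. -/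
def cstE : ↥E →+* Om N := (algebraMap Qb (Om N)).comp (algebraMap ↥E Qb)

theorem cstE_injective : Function.Injective (cstE N E) :=
  (cstE N E).injective

theorem valF_comp_cstRF :
    (valF N E).comp (cstRF N A E) = (cstE N E).comp (H602.RE A E).subtype := rfl

/-- `(A ∩ E)[X]` is integrally closed. -/
theorem isIntegrallyClosed_polynomial_RE : IsIntegrallyClosed (↥(H602.RE A E))[X] :=
  inferInstance

/-- `A ∩ E` is noetherian (`E` a number field, `A` over a prime `ℓ`). -/
theorem isNoetherianRing_RE [FiniteDimensional ℚ E] {ℓ : ℕ} (hℓ : ℓ ≠ 0)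
    (hA : (ℓ : Qb) ∈ A.nonunits) : IsNoetherianRing ↥(H602.RE A E) := by
  have := H602.isDiscreteValuationRing_RE A E hℓ hA
  infer_instance

/-- `A ∩ E` is integrally closed in `E(j_d : d ∣ N)`. -/
theorem mem_range_of_isIntegral (y : ↥(Fc N E))
    (hy : IsIntegral ↥(H602.RE A E) y) :
    y ∈ Set.range (algebraMap ↥(H602.RE A E) ↥(Fc N E)) := by
  obtain ⟨p, hp, hpy⟩ := hy
  -- `y` is algebraic over `Ec`, hence a constant from `E`
  have hpy' : Polynomial.eval₂ ((cstE N E).comp (H602.RE A E).subtype) (y : Om N) p = 0 := by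
    have h1 : Polynomial.eval₂ (cstRF N A E) y p = 0 := hpy
    have h2 := Polynomial.hom_eval₂ p (cstRF N A E) (valF N E) y
    rw [h1, map_zero, valF_comp_cstRF] at h2
    exact h2.symm
  have halg : IsAlgebraic (Ec N E) (y : Om N) := by
    let ψ : ↥(H602.RE A E) →+* ↥(Ec N E) :=
      { toFun := fun r => ⟨H456.cstR N A E r, H456.field_R_le N A E (H456.cstR_mem_Rc N A E r)⟩
        map_one' := Subtype.ext (H456.cstR_one N A E)
        map_mul' := fun r s => Subtype.ext (H456.cstR_mul N A E r s)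
        map_zero' := Subtype.ext (H456.cstR_zero N A E)
        map_add' := fun r s => Subtype.ext
          (show H456.cstR N A E (r + s) = H456.cstR N A E r + H456.cstR N A E s from
            congrArg Subtype.val (map_add (cstRF N A E) r s)) }
    have hψ : Function.Injective ψ := fun r s h =>
      H456.cstR_injective N A E (congrArg Subtype.val h)
    refine ⟨p.map ψ, (Polynomial.map_ne_zero_iff hψ).2 hp.ne_zero, ?_⟩
    rw [Polynomial.aeval_def, Polynomial.eval₂_map]
    exact hpy'
  have hyE : (y : Om N) ∈ Ec N E := H456.field_E_closed_in_F N E _ y.2 halg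
  obtain ⟨c, hcE, hc⟩ := (H456.mem_Ec_iff N E).1 hyE
  -- `c` is integral over `A ∩ E`
  have hcint : IsIntegral ↥(H602.RE A E) (⟨c, hcE⟩ : ↥E) := by
    refine ⟨p, hp, ?_⟩
    apply cstE_injective N E
    rw [map_zero]
    have h2 := Polynomial.hom_eval₂ p (algebraMap ↥(H602.RE A E) ↥E) (cstE N E) ⟨c, hcE⟩
    have h3 : cstE N E ⟨c, hcE⟩ = (y : Om N) := hc
    rw [h2, h3]
    exact hpy'
  obtain ⟨r, hr⟩ := (IsIntegrallyClosed.isIntegral_iff (R := ↥(H602.RE A E)) (K := ↥E)).1 hcint
  refine ⟨r, Subtype.ext ?_⟩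
  rw [algebraMap_RF_eq, coe_cstRF, ← hc]
  show cstE N E (algebraMap ↥(H602.RE A E) ↥E r) = _
  rw [hr]
  rfl

section Coordinate

variable [NeZero N]

/-- The function `j` as an element of `E(j_d : d ∣ N)`. -/
def jE : ↥(Fc N E) := ⟨jOm N, H458.jOm_mem_Fc N E⟩

theorem coe_jE : ((jE N E : ↥(Fc N E)) : Om N) = jOm N := rfl

/-- `j` is transcendental over `A ∩ E`. -/
theorem transcendental_jE : Transcendental ↥(H602.RE A E) (jE N E) := by
  rintro ⟨p, hp0, hp⟩
  have hp' : Polynomial.eval₂ (cstRF N A E) (jE N E) p = 0 := hp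
  let ψ : ↥(H602.RE A E) →+* ↥(Lc N) :=
    { toFun := fun r => ⟨H456.cstR N A E r,
        H456.field_E_le_L N E (H456.field_R_le N A E (H456.cstR_mem_Rc N A E r))⟩
      map_one' := Subtype.ext (H456.cstR_one N A E)
      map_mul' := fun r s => Subtype.ext (H456.cstR_mul N A E r s)
      map_zero' := Subtype.ext (H456.cstR_zero N A E)
      map_add' := fun r s => Subtype.ext
          (show H456.cstR N A E (r + s) = H456.cstR N A E r + H456.cstR N A E s from
            congrArg Subtype.val (map_add (cstRF N A E) r s)) }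
  have hψ : Function.Injective ψ := fun r s h =>
    H456.cstR_injective N A E (congrArg Subtype.val h)
  refine H458.transcendental_jOm N ⟨p.map ψ, (Polynomial.map_ne_zero_iff hψ).2 hp0, ?_⟩
  rw [Polynomial.aeval_def, Polynomial.eval₂_map]
  have h2 := Polynomial.hom_eval₂ p (cstRF N A E) (valF N E) (jE N E)
  rw [hp', map_zero] at h2
  exact h2.symm

/-- The image of the base field `Frac(A ∩ E)(j)` in `Ω` contains `E(j)`. -/
theorem ratField_le_map_baseField :
    Alg.ratField (Ec N E) (jOm N) ≤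
      (baseField ↥(H602.RE A E) (jE N E)).map (valF N E) := by
  refine Subfield.closure_le.2 ?_
  rintro e (he | he)
  · -- constants
    have hR : ∀ r ∈ Rc N A E, r ∈ (baseField ↥(H602.RE A E) (jE N E)).map (valF N E) := by
      intro r hr
      obtain ⟨r', rfl⟩ := (H456.mem_Rc_iff_cstR N A E).1 hr
      exact ⟨cstRF N A E r', Subfield.subset_closure (Or.inl ⟨r', rfl⟩), rfl⟩
    rcases H456.field_R_total N A E e he with h | h
    · exact hR e h
    · have := Subfield.inv_mem _ (hR _ h)
      rwa [inv_inv] at this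
  · rw [Set.mem_singleton_iff] at he
    subst he
    exact ⟨jE N E, Subfield.subset_closure (Or.inr rfl), rfl⟩

/-- `E(j_d : d ∣ N)` is finite over `Frac(A ∩ E)(j)`. -/
theorem finiteDimensional_baseField :
    FiniteDimensional (baseField ↥(H602.RE A E) (jE N E)) ↥(Fc N E) := by
  classical
  obtain ⟨s, hs, hspan⟩ := H458.field_finite_jOm N E
  set K := baseField ↥(H602.RE A E) (jE N E) with hK
  -- the spanning set inside `F`
  let s' : Finset ↥(Fc N E) := s.attach.image fun t => ⟨t.1, hs t.2⟩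
  refine Module.finite_def.2 ⟨s', ?_⟩
  rw [eq_top_iff]
  rintro f -
  obtain ⟨c, -, hc⟩ := Submodule.mem_span_finset.1 (hspan f f.2)
  have hcK : ∀ t : Om N, ∃ b : ↥(Fc N E), b ∈ K ∧ (b : Om N) = (c t : Om N) := by
    intro t
    obtain ⟨b, hb, hbt⟩ := ratField_le_map_baseField N A E (c t).2
    exact ⟨b, hb, hbt⟩
  choose b hbK hb using hcK
  have hf : f = ∑ t ∈ s.attach, (⟨b t.1, hbK t.1⟩ : K) • (⟨t.1, hs t.2⟩ : ↥(Fc N E)) := by
    apply Subtype.ext
    rw [← hc, ← Finset.sum_attach s]
    simp only [Subfield.smul_def, smul_eq_mul]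
    rw [show ((∑ t ∈ s.attach, b t.1 * (⟨t.1, hs t.2⟩ : ↥(Fc N E)) : ↥(Fc N E)) : Om N) =
      ∑ t ∈ s.attach, ((b t.1 : ↥(Fc N E)) : Om N) * t.1 from by
        rw [← Subfield.coe_subtype, map_sum]
        rfl]
    refine Finset.sum_congr rfl fun t _ => ?_
    rw [hb]
  rw [hf]
  refine Submodule.sum_mem _ fun t ht => Submodule.smul_mem _ _ (Submodule.subset_span ?_)
  exact Finset.mem_coe.2 (Finset.mem_image.2 ⟨t, ht, rfl⟩)

/-- **CONN, concrete.**  The special fibre of the normal two-chart model of `X₀(N)` over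
`R = A ∩ E` (charts `B_fin`, `B_inf` = integral closures of `R[j]`, `R[1/j]` in
`E(j_d : d ∣ N)`) is connected: a pair of idempotents modulo `w` on the two charts which agree
on the overlap is `(0, 0)` or `(1, 1)`.  No hypothesis on the reduction type. -/
theorem modular_connected_special_fibre [FiniteDimensional ℚ E] {ℓ : ℕ} (hℓ : ℓ ≠ 0)
    (hA : (ℓ : Qb) ∈ A.nonunits) (w : ↥(H602.RE A E)) (hw : Prime w)
    (e₁ e₂ : ↥(Fc N E))
    (he₁ : e₁ ∈ chart ↥(H602.RE A E) ({jE N E} : Set ↥(Fc N E)))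
    (he₂ : e₂ ∈ chart ↥(H602.RE A E) ({(jE N E)⁻¹} : Set ↥(Fc N E)))
    (hi₁ : ∃ t ∈ chart ↥(H602.RE A E) ({jE N E} : Set ↥(Fc N E)),
      e₁ ^ 2 - e₁ = algebraMap ↥(H602.RE A E) ↥(Fc N E) w * t)
    (hi₂ : ∃ t ∈ chart ↥(H602.RE A E) ({(jE N E)⁻¹} : Set ↥(Fc N E)),
      e₂ ^ 2 - e₂ = algebraMap ↥(H602.RE A E) ↥(Fc N E) w * t)
    (h₁₂ : ∃ t ∈ chart ↥(H602.RE A E) ({jE N E, (jE N E)⁻¹} : Set ↥(Fc N E)),
      e₁ - e₂ = algebraMap ↥(H602.RE A E) ↥(Fc N E) w * t) :
    ((∃ t ∈ chart ↥(H602.RE A E) ({jE N E} : Set ↥(Fc N E)),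
        e₁ = algebraMap ↥(H602.RE A E) ↥(Fc N E) w * t) ∧
      (∃ t ∈ chart ↥(H602.RE A E) ({(jE N E)⁻¹} : Set ↥(Fc N E)),
        e₂ = algebraMap ↥(H602.RE A E) ↥(Fc N E) w * t)) ∨
    ((∃ t ∈ chart ↥(H602.RE A E) ({jE N E} : Set ↥(Fc N E)),
        1 - e₁ = algebraMap ↥(H602.RE A E) ↥(Fc N E) w * t) ∧
      (∃ t ∈ chart ↥(H602.RE A E) ({(jE N E)⁻¹} : Set ↥(Fc N E)),
        1 - e₂ = algebraMap ↥(H602.RE A E) ↥(Fc N E) w * t)) := by
  haveI := isNoetherianRing_RE A E hℓ hA
  haveI := isIntegrallyClosed_polynomial_RE A E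
  haveI := finiteDimensional_baseField N A E
  haveI : CharZero ↥(Fc N E) := by
    haveI : CharZero (Om N) := H456.field_charZero N
    exact (valF N E).charZero
  exact connected_special_fibre (algebraMap_RF_injective N A E)
    (mem_range_of_isIntegral N A E) (transcendental_jE N A E) w hw e₁ e₂ he₁ he₂ hi₁ hi₂ h₁₂

end Coordinate

end Fermat.Agent.A2.H13
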